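import Mathlib
import Fermat.Agent.S17.R.LSpace
import Fermat.Agent.S17.R.LStep
import Fermat.Agent.S17.R.Riemann
import Fermat.Agent.S17.R.ReducedCore
import Fermat.Agent.S17.R.NonSpecialStep

/-!
# S17, strand H, block F, leaf F5c: Northcott on the fine translates (level-free)

A group `Γ` acts on the function field through `ρ : Γ →* SemilinearAut K F` and fixes the base
place `v₀`.  `Hpl ≥ 0` is a function on places with the *bounded-orbit Northcott property*:
for all `B`, `d` the places `P` with `Hpl P ≤ B` whose `Γ`-orbit lies in a set of at most `d`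
places are finite in number.  `T` is a finite `Γ`-stable set of classes.

`northcott_fine_translate` : for `t ∈ T` the `Γ`-fixed classes `x` such that `x + t` has reduced
degree `gR K F` and the reduced divisor of `x + t` has height at most `B` are finite in number.

Proof.  `E := redDiv v₀ (x + t)` is effective of degree `g`; for `σ ∈ Γ`,
`σ • E = redDiv v₀ (x + σ • t)` and `σ • t ∈ T`, so the orbit of a point of `E` lies in the union
over `t' ∈ T` of the supports of `redDiv v₀ (x + t')`: at most `#T * g` places.  The points of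
`E` have `Hpl ≤ B`.  So `E` is supported in a fixed finite set with coefficients in `[0, g]`,
and `x + t` is the class of `E - g v₀`.
-/

set_option autoImplicit false

namespace Fermat.Agent.S17.H.Pos

open AlgebraicCurve Fermat.Agent.S17.R Fermat.Agent.S17.R.NonSpecialStep

variable {K F : Type*} [Field K] [Field F] [Algebra K F]
variable [IsAlgClosed K] [CharZero K] [Algebra.EssFiniteType K F]

namespace SpecialNorthcott

omit [IsAlgClosed K] [CharZero K] [Algebra.EssFiniteType K F] in
/-- Two classes with the same effective representative in the same degree are equal. -/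
theorem eq_of_isEffRep {v₀ : Place K F} {y y' : Pic0 K F} {d : ℕ} {E : Divisor K F}
    (h : IsEffRep v₀ y d E) (h' : IsEffRep v₀ y' d E) : y = y' := by
  obtain ⟨-, h1, hmk1⟩ := h
  obtain ⟨-, h2, hmk2⟩ := h'
  rw [← hmk1, ← hmk2]

/-- Every class has an effective representative (Riemann's inequality). -/
theorem exists_rep (htr : Algebra.trdeg K F = 1) (v₀ : Place K F) (y : Pic0 K F) :
    ∃ (d : ℕ) (E : Divisor K F), IsEffRep v₀ y d E :=
  ⟨gR K F, exists_isEffRep_of_riemann htr (riemann_inequality htr) v₀ y⟩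

/-- The reduced degree is at most the genus. -/
theorem redDeg_le_gR (htr : Algebra.trdeg K F = 1) (v₀ : Place K F) (y : Pic0 K F) :
    redDeg v₀ y ≤ gR K F := by
  obtain ⟨E, hE⟩ := exists_isEffRep_of_riemann htr (riemann_inequality htr) v₀ y
  exact redDeg_le hE

/-- A coefficient of an effective divisor is at most its degree. -/
theorem apply_le_degree (htr : Algebra.trdeg K F = 1) {E : Divisor K F} (hE : 0 ≤ E)
    (P : Place K F) : E P ≤ Divisor.degree E := by
  classical
  rw [degree_eq_sum_support htr E]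
  by_cases hP : P ∈ E.support
  · exact Finset.single_le_sum (f := fun v => E v)
      (fun v _ => by simpa using Finsupp.le_def.mp hE v) hP
  · have h0 : E P = 0 := by simpa using hP
    rw [h0]
    exact Finset.sum_nonneg fun v _ => by simpa using Finsupp.le_def.mp hE v

/-- The support of the reduced divisor has at most `gR` elements. -/
theorem card_support_redDiv_le (htr : Algebra.trdeg K F = 1) (v₀ : Place K F) (y : Pic0 K F) :
    (redDiv v₀ y).support.card ≤ gR K F := by
  have hx := exists_rep htr v₀ y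
  have h1 := card_support_le_degree htr (redDiv_nonneg_of_exists hx)
  rw [degree_redDiv_of_exists htr hx] at h1
  have h2 := redDeg_le_gR htr v₀ y
  have h3 : ((redDiv v₀ y).support.card : ℤ) ≤ (gR K F : ℤ) :=
    le_trans h1 (by exact_mod_cast h2)
  exact_mod_cast h3

omit [IsAlgClosed K] [CharZero K] [Algebra.EssFiniteType K F] in
/-- A point of an effective divisor has height at most the height of the divisor. -/
theorem height_le_sum {E : Divisor K F} (hE : 0 ≤ E) (Hpl : Place K F → ℝ)
    (hH0 : ∀ P, 0 ≤ Hpl P) {P : Place K F} (hP : P ∈ E.support) :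
    Hpl P ≤ E.sum fun Q n => (n : ℝ) * Hpl Q := by
  classical
  have hnn : ∀ v : Place K F, (0 : ℝ) ≤ ((E v : ℤ) : ℝ) * Hpl v := fun v =>
    mul_nonneg (by exact_mod_cast (show (0 : ℤ) ≤ E v by simpa using Finsupp.le_def.mp hE v))
      (hH0 v)
  have h1 : ((E P : ℤ) : ℝ) * Hpl P ≤ E.sum fun Q n => (n : ℝ) * Hpl Q := by
    unfold Finsupp.sum
    exact Finset.single_le_sum (f := fun v => ((E v : ℤ) : ℝ) * Hpl v) (fun v _ => hnn v) hP
  have h2 : (1 : ℤ) ≤ E P := by
    have h0 : (0 : ℤ) ≤ E P := by simpa using Finsupp.le_def.mp hE P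
    have hne : E P ≠ 0 := Finsupp.mem_support_iff.mp hP
    omega
  have h3 : (1 : ℝ) ≤ ((E P : ℤ) : ℝ) := by exact_mod_cast h2
  nlinarith [hH0 P]

end SpecialNorthcott

open SpecialNorthcott

/-- **(F5c)** Northcott on the fine translates, from the bounded-orbit Northcott property of a
place-height. -/
theorem northcott_fine_translate {Γ : Type*} [Group Γ] (ρ : Γ →* SemilinearAut K F)
    (htr : Algebra.trdeg K F = 1) (v₀ : Place K F) (hv₀ : ∀ σ : Γ, ρ σ • v₀ = v₀)
    (Hpl : Place K F → ℝ) (hH0 : ∀ P, 0 ≤ Hpl P)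
    (hNor : ∀ (B : ℝ) (d : ℕ), {P : Place K F | Hpl P ≤ B ∧
      ∃ s : Finset (Place K F), s.card ≤ d ∧ ∀ σ : Γ, ρ σ • P ∈ s}.Finite)
    (T : Finset (Pic0 K F)) (hT : ∀ σ : Γ, ∀ t ∈ T, ρ σ • t ∈ T)
    (t : Pic0 K F) (ht : t ∈ T) (B : ℝ) :
    {x : Pic0 K F | (∀ σ : Γ, ρ σ • x = x) ∧ redDeg v₀ (x + t) = gR K F ∧
      ((redDiv v₀ (x + t)).sum fun P n => (n : ℝ) * Hpl P) ≤ B}.Finite := by
  classical
  have hΩ := hNor B (T.card * gR K F)
  refine Set.Finite.of_injOn (f := fun x : Pic0 K F => redDiv v₀ (x + t))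
    (t := ((hΩ.toFinset.finsupp fun _ => Finset.Icc (0 : ℤ) (gR K F) :
      Finset (Place K F →₀ ℤ)) : Set (Place K F →₀ ℤ))) ?_ ?_ (Finset.finite_toSet _)
  · -- the reduced divisor lies in the finite set
    rintro x ⟨hfix, hred, hB⟩
    have hx := exists_rep htr v₀ (x + t)
    have hE0 : 0 ≤ redDiv v₀ (x + t) := redDiv_nonneg_of_exists hx
    show redDiv v₀ (x + t) ∈ ((hΩ.toFinset.finsupp fun _ => Finset.Icc (0 : ℤ) (gR K F) :
      Finset (Place K F →₀ ℤ)) : Set (Place K F →₀ ℤ))
    rw [Finset.mem_coe, Finset.mem_finsupp_iff]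
    refine ⟨fun P hP => ?_, fun P _ => ?_⟩
    · rw [Set.Finite.mem_toFinset]
      refine ⟨le_trans (height_le_sum hE0 Hpl hH0 hP) hB,
        T.biUnion (fun t' => (redDiv v₀ (x + t')).support), ?_, fun σ => ?_⟩
      · refine le_trans Finset.card_biUnion_le ?_
        calc ∑ t' ∈ T, (redDiv v₀ (x + t')).support.card
            ≤ ∑ _t' ∈ T, gR K F :=
              Finset.sum_le_sum fun t' _ => card_support_redDiv_le htr v₀ (x + t')
          _ = T.card * gR K F := by rw [Finset.sum_const, smul_eq_mul]
      · rw [Finset.mem_biUnion]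
        refine ⟨ρ σ • t, hT σ t ht, ?_⟩
        have h1 := redDiv_smul_of_exists htr (ρ σ) hx
        rw [hv₀ σ, smul_add, hfix σ] at h1
        rw [h1, Finsupp.mem_support_iff, SemilinearAut.divisor_smul_apply_smul]
        exact Finsupp.mem_support_iff.mp hP
    · rw [Finset.mem_Icc]
      refine ⟨by simpa using Finsupp.le_def.mp hE0 P, ?_⟩
      have h1 := apply_le_degree htr hE0 P
      rw [degree_redDiv_of_exists htr hx, hred] at h1
      exact h1
  · -- the class is determined by its reduced divisor
    rintro x ⟨-, hred, -⟩ x' ⟨-, hred', -⟩ heq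
    have heq' : redDiv v₀ (x + t) = redDiv v₀ (x' + t) := heq
    have h1 := isEffRep_redDiv_of_exists (exists_rep htr v₀ (x + t))
    have h2 := isEffRep_redDiv_of_exists (exists_rep htr v₀ (x' + t))
    rw [hred] at h1
    rw [hred', ← heq'] at h2
    exact add_right_cancel (eq_of_isEffRep h1 h2)

end Fermat.Agent.S17.H.Pos
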