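import Mathlib
import Fermat.Agent.S17.R.LSpace
import Fermat.Agent.S17.R.LStep
import Fermat.Agent.S17.R.Riemann
import Fermat.Agent.S17.R.ReducedCore
import Fermat.Agent.S17.R.NonSpecialStep

/-!
# S17, strand H, block F, leaf F5b: general position from a finite pool (level-free)

A class `y` of `Pic0 K F` is *fine* (with respect to the base place `v₀`) if the reduced degrees
of `y` and of `-y` are both equal to the genus `gR K F`.  For a divisor `D_y` of degree `0` in
the class this means `l(D_y + (g - 1) v₀) = 0 = l(-D_y + (g - 1) v₀)`.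

`exists_pool_fine` : there is `n₀` such that for every pool of at least `n₀` places, every class
`x` has a fine translate `x + [D]`, with `D` a divisor of degree `0` supported in the pool with
coefficients of absolute value at most `gR K F`.  (So finitely many translates suffice.)

The proof uses Riemann's theorem only (`riemann_inequality`, `riemann_eq_of_large`): no
Riemann–Roch, no differentials, no Jacobian variety.  One step replaces `(A, A')` by
`(A - Q + P, A' + Q - P)` with `P`, `Q` in the pool and lowers both `l(A)` and `l(A')` by one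
(truncated at `0`):

* `Q` is not a base point of `|A|` and is not bad for `A'`;
* `P` is not bad for `A - Q` and is not a base point of `|A' + Q|`.

Here `P` is *bad* for `B` if `l(B + P) ≠ l(B)`; if `deg B + 1 - g < l(B)` the bad places are
fewer than `c - deg B` (`bad_card_lt`), by the chain `L(B) ⊊ L(B + P₁) ⊊ … ` against Riemann's
theorem in large degree.
-/

set_option autoImplicit false

namespace Fermat.Agent.S17.H.Pos

open AlgebraicCurve Fermat.Agent.S17.R Fermat.Agent.S17.R.NonSpecialStep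

variable {K F : Type*} [Field K] [Field F] [Algebra K F]
variable [IsAlgClosed K] [CharZero K] [Algebra.EssFiniteType K F]

namespace SpecialPool

/-- `m` distinct bad places for `B` give a chain of `m` strict inclusions above `L(B)`. -/
theorem card_add_le (htr : Algebra.trdeg K F = 1) (B : Divisor K F) (s : Finset (Place K F))
    (hs : ∀ P ∈ s, Module.finrank K ↥(riemannRochSpace (B + Finsupp.single P (1 : ℤ))) ≠
      Module.finrank K ↥(riemannRochSpace B)) :
    Module.finrank K ↥(riemannRochSpace B) + s.card ≤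
      Module.finrank K ↥(riemannRochSpace (addPts B s)) := by
  classical
  induction s using Finset.induction_on with
  | empty =>
    rw [addPts_empty]
    simp
  | insert P s hP ih =>
    have ih' := ih fun Q hQ => hs Q (Finset.mem_insert_of_mem hQ)
    have hne := hs P (Finset.mem_insert_self P s)
    have hle : riemannRochSpace B ≤ riemannRochSpace (B + Finsupp.single P (1 : ℤ)) :=
      L_mono (le_add_of_nonneg_right (single_one_nonneg P))
    have hex : ∃ f ∈ riemannRochSpace (B + Finsupp.single P (1 : ℤ)),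
        f ∉ riemannRochSpace B := by
      by_contra hcon
      push Not at hcon
      have heq : riemannRochSpace (B + Finsupp.single P (1 : ℤ)) = riemannRochSpace B :=
        le_antisymm hcon hle
      exact hne (by rw [heq])
    obtain ⟨f, hf, hf'⟩ := hex
    have hord := ord_lt_of_notMem hf hf'
    have hf0 : f ≠ 0 := fun h => hf' (by rw [h]; exact Submodule.zero_mem _)
    have h1 : f ∈ riemannRochSpace (addPts B s + Finsupp.single P (1 : ℤ)) :=
      L_mono (add_le_add (le_addPts B s) le_rfl) hf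
    have h2 : f ∉ riemannRochSpace (addPts B s) := by
      intro hmem
      have h3 := (mem_L_of_ne_zero hf0).mp hmem P
      rw [addPts_apply_of_notMem B s hP] at h3
      omega
    have h3 := finrank_lt_of_pole htr h1 h2
    rw [addPts_insert B hP, Finset.card_insert_of_notMem hP]
    omega

/-- The counting bound: `deg B + #s < c` for every finite set `s` of bad places of a divisor
`B` with `deg B + 1 - g < l(B)`. -/
theorem bad_card_lt (htr : Algebra.trdeg K F = 1) {c : ℤ}
    (hc : ∀ D : Divisor K F, c ≤ Divisor.degree D →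
      (Module.finrank K ↥(riemannRochSpace D) : ℤ) = Divisor.degree D + 1 - (gR K F : ℤ))
    (B : Divisor K F)
    (hB : Divisor.degree B + 1 - (gR K F : ℤ) < (Module.finrank K ↥(riemannRochSpace B) : ℤ))
    (s : Finset (Place K F))
    (hs : ∀ P ∈ s, Module.finrank K ↥(riemannRochSpace (B + Finsupp.single P (1 : ℤ))) ≠
      Module.finrank K ↥(riemannRochSpace B)) :
    Divisor.degree B + s.card < c := by
  by_contra hcon
  push Not at hcon
  have h1 := card_add_le htr B s hs
  have h2 := hc (addPts B s) (by rw [degree_addPts htr]; exact hcon)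
  rw [degree_addPts htr] at h2
  have h3 : ((Module.finrank K ↥(riemannRochSpace B) + s.card : ℕ) : ℤ) ≤
      (Module.finrank K ↥(riemannRochSpace (addPts B s)) : ℤ) := by
    exact_mod_cast h1
  push_cast at h3
  omega

/-- The bad places of a divisor `B` with `deg B + 1 - g < l(B)` form a finite set with fewer
than `c - deg B` elements. -/
theorem exists_bad_finset (htr : Algebra.trdeg K F = 1) {c : ℤ}
    (hc : ∀ D : Divisor K F, c ≤ Divisor.degree D →
      (Module.finrank K ↥(riemannRochSpace D) : ℤ) = Divisor.degree D + 1 - (gR K F : ℤ))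
    (B : Divisor K F)
    (hB : Divisor.degree B + 1 - (gR K F : ℤ) < (Module.finrank K ↥(riemannRochSpace B) : ℤ)) :
    ∃ bad : Finset (Place K F), (bad.card : ℤ) < c - Divisor.degree B ∧
      ∀ P : Place K F, P ∉ bad →
        Module.finrank K ↥(riemannRochSpace (B + Finsupp.single P (1 : ℤ))) =
          Module.finrank K ↥(riemannRochSpace B) := by
  classical
  have key : ∀ s : Finset (Place K F),
      (∀ P ∈ s, Module.finrank K ↥(riemannRochSpace (B + Finsupp.single P (1 : ℤ))) ≠
        Module.finrank K ↥(riemannRochSpace B)) → Divisor.degree B + s.card < c :=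
    fun s hs => bad_card_lt htr hc B hB s hs
  have hfin : {P : Place K F |
      Module.finrank K ↥(riemannRochSpace (B + Finsupp.single P (1 : ℤ))) ≠
        Module.finrank K ↥(riemannRochSpace B)}.Finite := by
    by_contra hinf
    obtain ⟨s, hsS, hcard⟩ :=
      Set.Infinite.exists_subset_card_eq hinf (c - Divisor.degree B).toNat
    have h1 := key s (fun P hP => hsS (Finset.mem_coe.mpr hP))
    rw [hcard] at h1
    have h2 := Int.self_le_toNat (c - Divisor.degree B)
    omega
  refine ⟨hfin.toFinset, ?_, fun P hP => ?_⟩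
  · have h1 := key hfin.toFinset (fun P hP => (Set.Finite.mem_toFinset hfin).mp hP)
    omega
  · by_contra hne
    exact hP ((Set.Finite.mem_toFinset hfin).mpr hne)

/-- Removing a place which is not a base point: `l(A - Q) + 1 = l(A)`. -/
theorem finrank_sub_single (htr : Algebra.trdeg K F = 1) (A : Divisor K F) {f : F}
    (hf0 : f ≠ 0) (hf : f ∈ riemannRochSpace A) {Q : Place K F}
    (hQ : (A + divOf K f) Q = 0) :
    Module.finrank K ↥(riemannRochSpace (A - Finsupp.single Q (1 : ℤ))) + 1 =
      Module.finrank K ↥(riemannRochSpace A) := by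
  have := finite_L htr A
  have hle' : A - Finsupp.single Q (1 : ℤ) ≤ A :=
    sub_le_self A (single_one_nonneg Q)
  have hle : riemannRochSpace (A - Finsupp.single Q (1 : ℤ)) ≤ riemannRochSpace A := L_mono hle'
  have hnot : f ∉ riemannRochSpace (A - Finsupp.single Q (1 : ℤ)) := by
    intro hmem
    have h1 := (mem_L_of_ne_zero hf0).mp hmem Q
    rw [Finsupp.add_apply, divOf_apply htr] at hQ
    rw [Finsupp.sub_apply, Finsupp.single_eq_same] at h1
    omega
  have hlt : riemannRochSpace (A - Finsupp.single Q (1 : ℤ)) < riemannRochSpace A :=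
    lt_of_le_of_ne hle (fun h => hnot (by rw [h]; exact hf))
  have h1 := Submodule.finrank_lt_finrank_of_lt hlt
  have h2 := finrank_L_le_of_le htr hle'
  have h3 : Divisor.degree (A - Finsupp.single Q (1 : ℤ)) = Divisor.degree A - 1 := by
    rw [map_sub, degree_single_one htr]
  rw [h3] at h2
  omega

/-- A non-zero function in `L(A)` when `l(A) ≥ 1`. -/
theorem exists_ne_zero_mem (htr : Algebra.trdeg K F = 1) (A : Divisor K F)
    (h : 1 ≤ Module.finrank K ↥(riemannRochSpace A)) :
    ∃ f : F, f ≠ 0 ∧ f ∈ riemannRochSpace A := by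
  have := finite_L htr A
  obtain ⟨x, hx⟩ := Module.finrank_pos_iff_exists_ne_zero.mp (Nat.lt_of_lt_of_le one_pos h)
  exact ⟨(x : F), fun h0 => hx (Subtype.ext h0), x.2⟩

/-- The base points of `|A|` lie in a finite set with at most `deg A` elements. -/
theorem exists_base_finset (htr : Algebra.trdeg K F = 1) (A : Divisor K F)
    (h : 1 ≤ Module.finrank K ↥(riemannRochSpace A)) :
    ∃ S : Finset (Place K F), (S.card : ℤ) ≤ Divisor.degree A ∧
      ∀ Q : Place K F, Q ∉ S →
        Module.finrank K ↥(riemannRochSpace (A - Finsupp.single Q (1 : ℤ))) + 1 =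
          Module.finrank K ↥(riemannRochSpace A) := by
  obtain ⟨f, hf0, hf⟩ := exists_ne_zero_mem htr A h
  have hE : 0 ≤ A + divOf K f := add_divOf_nonneg htr hf0 hf
  refine ⟨(A + divOf K f).support, ?_, fun Q hQ => ?_⟩
  · have h1 := card_support_le_degree htr hE
    rw [map_add, degree_divOf htr, add_zero] at h1
    exact h1
  · exact finrank_sub_single htr A hf0 hf (by simpa using hQ)

/-- **One step.**  For `A`, `A'` of degree `g - 1` and a large pool there are `P`, `Q` in the
pool with `l(A - Q + P) = l(A) - 1` and `l(A' + Q - P) = l(A') - 1` (truncated subtraction). -/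
theorem step (htr : Algebra.trdeg K F = 1) {c : ℤ}
    (hc : ∀ D : Divisor K F, c ≤ Divisor.degree D →
      (Module.finrank K ↥(riemannRochSpace D) : ℤ) = Divisor.degree D + 1 - (gR K F : ℤ))
    (pool : Finset (Place K F)) (hpool : c.toNat + 2 * gR K F + 3 ≤ pool.card)
    (A A' : Divisor K F) (hA : Divisor.degree A = (gR K F : ℤ) - 1)
    (hA' : Divisor.degree A' = (gR K F : ℤ) - 1) :
    ∃ P ∈ pool, ∃ Q ∈ pool,
      Module.finrank K ↥(riemannRochSpace
          (A - Finsupp.single Q (1 : ℤ) + Finsupp.single P (1 : ℤ))) =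
        Module.finrank K ↥(riemannRochSpace A) - 1 ∧
      Module.finrank K ↥(riemannRochSpace
          (A' + Finsupp.single Q (1 : ℤ) - Finsupp.single P (1 : ℤ))) =
        Module.finrank K ↥(riemannRochSpace A') - 1 := by
  classical
  have hcle : c ≤ (c.toNat : ℤ) := Int.self_le_toNat c
  -- the choice of `Q`
  have hS₁ : ∃ S₁ : Finset (Place K F), S₁.card ≤ gR K F ∧ ∀ Q : Place K F, Q ∉ S₁ →
      Module.finrank K ↥(riemannRochSpace (A - Finsupp.single Q (1 : ℤ))) =
        Module.finrank K ↥(riemannRochSpace A) - 1 := by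
    by_cases h : 1 ≤ Module.finrank K ↥(riemannRochSpace A)
    · obtain ⟨S, hScard, hS⟩ := exists_base_finset htr A h
      refine ⟨S, ?_, fun Q hQ => ?_⟩
      · rw [hA] at hScard
        omega
      · have := hS Q hQ
        omega
    · refine ⟨∅, Nat.zero_le _, fun Q _ => ?_⟩
      have := finite_L htr A
      have hle : riemannRochSpace (A - Finsupp.single Q (1 : ℤ)) ≤ riemannRochSpace A :=
        L_mono (sub_le_self A (single_one_nonneg Q))
      have := Submodule.finrank_mono hle
      omega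
  have hS₂ : ∃ S₂ : Finset (Place K F), S₂.card ≤ c.toNat + 1 ∧ ∀ Q : Place K F, Q ∉ S₂ →
      1 ≤ Module.finrank K ↥(riemannRochSpace A') →
      Module.finrank K ↥(riemannRochSpace (A' + Finsupp.single Q (1 : ℤ))) =
        Module.finrank K ↥(riemannRochSpace A') := by
    by_cases h : 1 ≤ Module.finrank K ↥(riemannRochSpace A')
    · have hB : Divisor.degree A' + 1 - (gR K F : ℤ) <
          (Module.finrank K ↥(riemannRochSpace A') : ℤ) := by
        rw [hA']
        have : (1 : ℤ) ≤ (Module.finrank K ↥(riemannRochSpace A') : ℤ) := by exact_mod_cast h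
        omega
      obtain ⟨bad, hbad, hb⟩ := exists_bad_finset htr hc A' hB
      refine ⟨bad, ?_, fun Q hQ _ => hb Q hQ⟩
      rw [hA'] at hbad
      omega
    · exact ⟨∅, Nat.zero_le _, fun Q _ h' => absurd h' h⟩
  obtain ⟨S₁, hS₁card, hS₁⟩ := hS₁
  obtain ⟨S₂, hS₂card, hS₂⟩ := hS₂
  obtain ⟨Q, hQpool, hQbad⟩ : ∃ Q, Q ∈ pool ∧ Q ∉ S₁ ∪ S₂ := by
    apply Finset.exists_mem_notMem_of_card_lt_card
    have := Finset.card_union_le S₁ S₂
    omega
  rw [Finset.mem_union, not_or] at hQbad
  obtain ⟨hQ₁, hQ₂⟩ := hQbad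
  have hAQ := hS₁ Q hQ₁
  -- the choice of `P`
  have hdegAQ : Divisor.degree (A - Finsupp.single Q (1 : ℤ)) = (gR K F : ℤ) - 2 := by
    rw [map_sub, degree_single_one htr, hA]
    ring
  have hB₃ : Divisor.degree (A - Finsupp.single Q (1 : ℤ)) + 1 - (gR K F : ℤ) <
      (Module.finrank K ↥(riemannRochSpace (A - Finsupp.single Q (1 : ℤ))) : ℤ) := by
    rw [hdegAQ]
    have : (0 : ℤ) ≤ (Module.finrank K ↥(riemannRochSpace (A - Finsupp.single Q (1 : ℤ))) : ℤ) :=
      Int.natCast_nonneg _
    omega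
  obtain ⟨S₃, hS₃card, hS₃⟩ := exists_bad_finset htr hc (A - Finsupp.single Q (1 : ℤ)) hB₃
  rw [hdegAQ] at hS₃card
  have hdegA'Q : Divisor.degree (A' + Finsupp.single Q (1 : ℤ)) = (gR K F : ℤ) := by
    rw [map_add, degree_single_one htr, hA']
    ring
  have hl1 : 1 ≤ Module.finrank K ↥(riemannRochSpace (A' + Finsupp.single Q (1 : ℤ))) := by
    have h := riemann_inequality htr (A' + Finsupp.single Q (1 : ℤ))
    rw [hdegA'Q] at h
    have h' : (1 : ℤ) ≤
        (Module.finrank K ↥(riemannRochSpace (A' + Finsupp.single Q (1 : ℤ))) : ℤ) := by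
      linarith
    exact_mod_cast h'
  obtain ⟨S₄, hS₄card, hS₄⟩ := exists_base_finset htr (A' + Finsupp.single Q (1 : ℤ)) hl1
  rw [hdegA'Q] at hS₄card
  obtain ⟨P, hPpool, hPbad⟩ : ∃ P, P ∈ pool ∧ P ∉ S₃ ∪ S₄ := by
    apply Finset.exists_mem_notMem_of_card_lt_card
    have := Finset.card_union_le S₃ S₄
    omega
  rw [Finset.mem_union, not_or] at hPbad
  obtain ⟨hP₃, hP₄⟩ := hPbad
  refine ⟨P, hPpool, Q, hQpool, ?_, ?_⟩
  · rw [hS₃ P hP₃, hAQ]
  · have h1 := hS₄ P hP₄
    by_cases h : 1 ≤ Module.finrank K ↥(riemannRochSpace A')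
    · have h2 := hS₂ Q hQ₂ h
      omega
    · have hle' : A' ≤ A' + Finsupp.single Q (1 : ℤ) :=
        le_add_of_nonneg_right (single_one_nonneg Q)
      have h2 := finrank_L_le_of_le htr hle'
      rw [hdegA'Q, hA'] at h2
      have h3 : (Module.finrank K ↥(riemannRochSpace (A' + Finsupp.single Q (1 : ℤ))) : ℤ) ≤
          (Module.finrank K ↥(riemannRochSpace A') : ℤ) + 1 := by linarith
      have h4 : Module.finrank K ↥(riemannRochSpace (A' + Finsupp.single Q (1 : ℤ))) ≤
          Module.finrank K ↥(riemannRochSpace A') + 1 := by exact_mod_cast h3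
      omega

/-- **Iteration.**  After `k` steps: a divisor `D` of degree `0` supported in the pool, with
coefficients of absolute value `≤ k`, with `l(A + D) = l(A) - k` and `l(A' - D) = l(A') - k`. -/
theorem iterate (htr : Algebra.trdeg K F = 1) {c : ℤ}
    (hc : ∀ D : Divisor K F, c ≤ Divisor.degree D →
      (Module.finrank K ↥(riemannRochSpace D) : ℤ) = Divisor.degree D + 1 - (gR K F : ℤ))
    (pool : Finset (Place K F)) (hpool : c.toNat + 2 * gR K F + 3 ≤ pool.card)
    (A A' : Divisor K F) (hA : Divisor.degree A = (gR K F : ℤ) - 1)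
    (hA' : Divisor.degree A' = (gR K F : ℤ) - 1) (k : ℕ) :
    ∃ D : Divisor K F, Divisor.degree D = 0 ∧ (∀ P : Place K F, P ∉ pool → D P = 0) ∧
      (∀ P : Place K F, |D P| ≤ (k : ℤ)) ∧
      Module.finrank K ↥(riemannRochSpace (A + D)) =
        Module.finrank K ↥(riemannRochSpace A) - k ∧
      Module.finrank K ↥(riemannRochSpace (A' - D)) =
        Module.finrank K ↥(riemannRochSpace A') - k := by
  classical
  induction k with
  | zero =>
    refine ⟨0, map_zero _, fun P _ => rfl, fun P => by simp, ?_, ?_⟩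
    · rw [add_zero, Nat.sub_zero]
    · rw [sub_zero, Nat.sub_zero]
  | succ k ih =>
    obtain ⟨D, hdeg, hsupp, habs, h1, h2⟩ := ih
    have hAD : Divisor.degree (A + D) = (gR K F : ℤ) - 1 := by rw [map_add, hdeg, add_zero, hA]
    have hA'D : Divisor.degree (A' - D) = (gR K F : ℤ) - 1 := by
      rw [map_sub, hdeg, sub_zero, hA']
    obtain ⟨P, hP, Q, hQ, h3, h4⟩ := step htr hc pool hpool (A + D) (A' - D) hAD hA'D
    refine ⟨D - Finsupp.single Q (1 : ℤ) + Finsupp.single P (1 : ℤ), ?_, fun v hv => ?_,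
      fun v => ?_, ?_, ?_⟩
    · rw [map_add, map_sub, degree_single_one htr, degree_single_one htr, hdeg]
      ring
    · have hvQ : Q ≠ v := fun h => hv (h ▸ hQ)
      have hvP : P ≠ v := fun h => hv (h ▸ hP)
      rw [Finsupp.add_apply, Finsupp.sub_apply, hsupp v hv, Finsupp.single_eq_of_ne' hvQ,
        Finsupp.single_eq_of_ne' hvP]
      ring
    · have h5 := habs v
      rw [Finsupp.add_apply, Finsupp.sub_apply, Finsupp.single_apply, Finsupp.single_apply]
      push_cast
      rw [abs_le] at h5 ⊢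
      constructor <;> split_ifs <;> omega
    · have e : A + (D - Finsupp.single Q (1 : ℤ) + Finsupp.single P (1 : ℤ)) =
          A + D - Finsupp.single Q (1 : ℤ) + Finsupp.single P (1 : ℤ) := by abel
      rw [e, h3, h1]
      omega
    · have e : A' - (D - Finsupp.single Q (1 : ℤ) + Finsupp.single P (1 : ℤ)) =
          A' - D + Finsupp.single Q (1 : ℤ) - Finsupp.single P (1 : ℤ) := by abel
      rw [e, h4, h2]
      omega

/-- If `l(D_y + (g - 1) v₀) = 0` then the reduced degree of the class of `D_y` is `g`. -/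
theorem redDeg_eq_of_finrank_eq_zero (htr : Algebra.trdeg K F = 1) (v₀ : Place K F)
    (Dy : Divisor K F) (hDy : Dy ∈ Divisor.degZero (K := K) (F := F))
    (h0 : Module.finrank K ↥(riemannRochSpace
      (Dy + ((gR K F : ℤ) - 1) • Finsupp.single v₀ (1 : ℤ))) = 0) :
    redDeg v₀ (Pic0.mk ⟨Dy, hDy⟩) = gR K F := by
  classical
  have hx : ∃ (d : ℕ) (E : Divisor K F), IsEffRep v₀ (Pic0.mk ⟨Dy, hDy⟩) d E :=
    ⟨gR K F, exists_isEffRep_of_riemann htr (riemann_inequality htr) v₀ _⟩
  obtain ⟨E₀, hE₀⟩ := exists_isEffRep_of_riemann htr (riemann_inequality htr) v₀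
    (Pic0.mk ⟨Dy, hDy⟩)
  have hle : redDeg v₀ (Pic0.mk ⟨Dy, hDy⟩) ≤ gR K F := redDeg_le hE₀
  by_contra hne
  have hlt : redDeg v₀ (Pic0.mk ⟨Dy, hDy⟩) < gR K F := lt_of_le_of_ne hle hne
  obtain ⟨hE0, hdeg, hmk⟩ := isEffRep_redDiv_of_exists hx
  obtain ⟨f, hf0, hf⟩ := (ReducedCore.mk_eq_mk_iff hdeg hDy).mp hmk
  have hmem : f⁻¹ ∈ riemannRochSpace (Dy + ((gR K F : ℤ) - 1) • Finsupp.single v₀ (1 : ℤ)) := by
    rw [mem_L_of_ne_zero (inv_ne_zero hf0)]
    intro v
    have h1 := hf v
    have h2 : (0 : ℤ) ≤ redDiv v₀ (Pic0.mk ⟨Dy, hDy⟩) v := Finsupp.le_def.mp hE0 v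
    rw [Finsupp.sub_apply, Finsupp.smul_apply, Finsupp.single_apply, smul_eq_mul] at h1
    rw [Place.ord_inv, Finsupp.add_apply, Finsupp.smul_apply, Finsupp.single_apply, smul_eq_mul]
    have hlt' : (redDeg v₀ (Pic0.mk ⟨Dy, hDy⟩) : ℤ) < (gR K F : ℤ) := by exact_mod_cast hlt
    split_ifs at h1 ⊢ <;> omega
  have := finite_L htr (Dy + ((gR K F : ℤ) - 1) • Finsupp.single v₀ (1 : ℤ))
  have hpos : 0 < Module.finrank K ↥(riemannRochSpace
      (Dy + ((gR K F : ℤ) - 1) • Finsupp.single v₀ (1 : ℤ))) :=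
    Module.finrank_pos_iff_exists_ne_zero.mpr
      ⟨⟨f⁻¹, hmem⟩, fun h => inv_ne_zero hf0 (congrArg Subtype.val h)⟩
  omega

end SpecialPool

open SpecialPool

/-- **(F5b)** General position from a finite pool.  There is `n₀` such that for every pool of
at least `n₀` places every class `x` has a fine translate `x + [D]`: `D` has degree `0`, is
supported in the pool with coefficients of absolute value at most `gR K F`, and the reduced
degrees of `x + [D]` and of `-(x + [D])` are both `gR K F`. -/
theorem exists_pool_fine (htr : Algebra.trdeg K F = 1) (v₀ : Place K F) :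
    ∃ n₀ : ℕ, ∀ pool : Finset (Place K F), n₀ ≤ pool.card → ∀ x : Pic0 K F,
      ∃ (D : Divisor K F) (hD : D ∈ Divisor.degZero (K := K) (F := F)),
        (∀ P : Place K F, P ∉ pool → D P = 0) ∧ (∀ P : Place K F, |D P| ≤ (gR K F : ℤ)) ∧
        redDeg v₀ (x + Pic0.mk ⟨D, hD⟩) = gR K F ∧
        redDeg v₀ (-(x + Pic0.mk ⟨D, hD⟩)) = gR K F := by
  classical
  obtain ⟨c, hc⟩ := riemann_eq_of_large (K := K) (F := F) htr
  refine ⟨c.toNat + 2 * gR K F + 3, fun pool hpool x => ?_⟩
  obtain ⟨⟨Dx, hDx⟩, rfl⟩ := Pic0.mk_surjective x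
  have hDx0 : Divisor.degree Dx = 0 := Divisor.mem_degZero.mp hDx
  have hdegv : Divisor.degree (((gR K F : ℤ) - 1) • Finsupp.single v₀ (1 : ℤ)) =
      (gR K F : ℤ) - 1 := by
    rw [map_zsmul, degree_single_one htr]
    simp
  have hA : Divisor.degree (Dx + ((gR K F : ℤ) - 1) • Finsupp.single v₀ (1 : ℤ)) =
      (gR K F : ℤ) - 1 := by
    rw [map_add, hDx0, hdegv, zero_add]
  have hA' : Divisor.degree (-Dx + ((gR K F : ℤ) - 1) • Finsupp.single v₀ (1 : ℤ)) =
      (gR K F : ℤ) - 1 := by
    rw [map_add, map_neg, hDx0, hdegv, neg_zero, zero_add]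
  obtain ⟨D, hdeg, hsupp, habs, h1, h2⟩ := iterate htr hc pool hpool _ _ hA hA' (gR K F)
  have hb : ∀ B : Divisor K F, Divisor.degree B = (gR K F : ℤ) - 1 →
      Module.finrank K ↥(riemannRochSpace B) ≤ gR K F := by
    intro B hB
    have h := finrank_L_le htr B
    rw [hB] at h
    have h' : (Module.finrank K ↥(riemannRochSpace B) : ℤ) ≤ (gR K F : ℤ) := by
      have : max ((gR K F : ℤ) - 1 + 1) 0 = (gR K F : ℤ) := by
        rw [sub_add_cancel]
        exact max_eq_left (Int.natCast_nonneg _)
      rw [this] at h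
      exact h
    exact_mod_cast h'
  have h1' : Module.finrank K ↥(riemannRochSpace
      (Dx + ((gR K F : ℤ) - 1) • Finsupp.single v₀ (1 : ℤ) + D)) = 0 := by
    rw [h1]
    exact Nat.sub_eq_zero_of_le (hb _ hA)
  have h2' : Module.finrank K ↥(riemannRochSpace
      (-Dx + ((gR K F : ℤ) - 1) • Finsupp.single v₀ (1 : ℤ) - D)) = 0 := by
    rw [h2]
    exact Nat.sub_eq_zero_of_le (hb _ hA')
  have hD : D ∈ Divisor.degZero (K := K) (F := F) := Divisor.mem_degZero.mpr hdeg
  refine ⟨D, hD, hsupp, habs, ?_, ?_⟩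
  · have e : Pic0.mk ⟨Dx, hDx⟩ + Pic0.mk ⟨D, hD⟩ =
        Pic0.mk ⟨Dx + D, add_mem hDx hD⟩ := rfl
    rw [e]
    apply redDeg_eq_of_finrank_eq_zero htr v₀
    have e' : Dx + D + ((gR K F : ℤ) - 1) • Finsupp.single v₀ (1 : ℤ) =
        Dx + ((gR K F : ℤ) - 1) • Finsupp.single v₀ (1 : ℤ) + D := by abel
    rw [e']
    exact h1'
  · have e : -(Pic0.mk ⟨Dx, hDx⟩ + Pic0.mk ⟨D, hD⟩) =
        Pic0.mk ⟨-(Dx + D), neg_mem (add_mem hDx hD)⟩ := rfl
    rw [e]
    apply redDeg_eq_of_finrank_eq_zero htr v₀
    have e' : -(Dx + D) + ((gR K F : ℤ) - 1) • Finsupp.single v₀ (1 : ℤ) =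
        -Dx + ((gR K F : ℤ) - 1) • Finsupp.single v₀ (1 : ℤ) - D := by abel
    rw [e']
    exact h2'

end Fermat.Agent.S17.H.Pos
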