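import Mathlib

/-!
# S17, strand H, block F, leaf F5a: the special locus by finitely many translates (level-free)

Let `q` be a quasi-quadratic function on an additive group `J` (quasi-parallelogram law with
constant `C`), `Fine` a predicate on `J`, `ht` a function with `0 ≤ ht x ≤ q x + C₁` on fine
elements, and `T` a finite set of translates such that every `x` has a fine translate `x + t`,
`t ∈ T`.  Then

* `q ≥ -C / 2` everywhere (`lower_bound`): if `2 * q y + C < 0` the second differences of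
  `k ↦ q (k • y + t)` are negative, so `q (k • y + t) → -∞` for every `t ∈ T`, against
  `q ≥ -C₁` on fine elements;
* if moreover, on a subgroup `M`, the fine translates of bounded `ht` are finite in number, then
  `h := q + C / 2` restricted to `M` is `≥ 0`, has finite sublevel sets and satisfies the
  quasi-parallelogram law (`exists_height_of_fine_translates`).

No limit is taken: the output is a shifted `q`, not its Tate normalisation.
-/

set_option autoImplicit false

namespace Fermat.Agent.S17.H.Pos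

namespace SpecialTate

variable {J : Type*} [AddCommGroup J]

/-- First differences along the line `k ↦ k • y + t`. -/
theorem diff_le {q : J → ℝ} {C : ℝ}
    (hq : ∀ x y : J, |q (x + y) + q (x - y) - 2 * (q x + q y)| ≤ C) (y t : J) (k : ℕ) :
    q ((k + 1) • y + t) - q (k • y + t) ≤ (q (y + t) - q t) + (k : ℝ) * (2 * q y + C) := by
  induction k with
  | zero => simp
  | succ k ih =>
    have h := (abs_le.mp (hq ((k + 1) • y + t) y)).2
    have e1 : (k + 1) • y + t + y = (k + 1 + 1) • y + t := by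
      rw [succ_nsmul y (k + 1)]; abel
    have e2 : (k + 1) • y + t - y = k • y + t := by
      rw [succ_nsmul y k]; abel
    rw [e1, e2] at h
    push_cast
    linarith

/-- Values along the line `k ↦ k • y + t`. -/
theorem line_le {q : J → ℝ} {C : ℝ}
    (hq : ∀ x y : J, |q (x + y) + q (x - y) - 2 * (q x + q y)| ≤ C) (y t : J) (k : ℕ) :
    q (k • y + t) ≤ q t + (k : ℝ) * (q (y + t) - q t)
      + ((k : ℝ) * ((k : ℝ) - 1) / 2) * (2 * q y + C) := by
  induction k with
  | zero => simp
  | succ k ih =>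
    have h := diff_le hq y t k
    push_cast
    nlinarith [h, ih]

/-- If `2 * q y + C < 0` then `q (k • y + t) < -C₁` for all large `k`. -/
theorem exists_line_lt {q : J → ℝ} {C : ℝ}
    (hq : ∀ x y : J, |q (x + y) + q (x - y) - 2 * (q x + q y)| ≤ C) (y t : J) (C₁ : ℝ)
    (hy : 2 * q y + C < 0) : ∃ k₀ : ℕ, ∀ k : ℕ, k₀ ≤ k → q (k • y + t) < -C₁ := by
  set δ : ℝ := -(2 * q y + C) with hδ
  have hδ0 : 0 < δ := by rw [hδ]; linarith
  set d : ℝ := q (y + t) - q t with hd
  obtain ⟨m, hm⟩ := exists_nat_ge (2 * (|d| + |q t + C₁| + 1) / δ)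
  refine ⟨m + 1, fun k hk => ?_⟩
  have h1 := line_le hq y t k
  have hk1 : (1 : ℝ) ≤ (k : ℝ) := by
    have : 1 ≤ k := le_trans (Nat.le_add_left 1 m) hk
    exact_mod_cast this
  have hkm : (m : ℝ) ≤ (k : ℝ) - 1 := by
    have : (m : ℝ) + 1 ≤ (k : ℝ) := by exact_mod_cast hk
    linarith
  have h2 : |d| + |q t + C₁| + 1 ≤ ((k : ℝ) - 1) * δ / 2 := by
    have h3 : 2 * (|d| + |q t + C₁| + 1) / δ ≤ (k : ℝ) - 1 := le_trans hm hkm
    rw [div_le_iff₀ hδ0] at h3
    linarith
  have h4 : d ≤ |d| := le_abs_self d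
  have h5 : q t + C₁ ≤ |q t + C₁| := le_abs_self _
  have h6 : 0 ≤ |d| := abs_nonneg d
  have h7 : 0 ≤ |q t + C₁| := abs_nonneg _
  have e : ((k : ℝ) * ((k : ℝ) - 1) / 2) * (2 * q y + C) = -((k : ℝ) * (((k : ℝ) - 1) * δ / 2)) := by
    rw [hδ]; ring
  rw [e] at h1
  have h8 : (k : ℝ) * d - (k : ℝ) * (((k : ℝ) - 1) * δ / 2) ≤ -(|q t + C₁| + 1) := by
    have h9 : d - ((k : ℝ) - 1) * δ / 2 ≤ -(|q t + C₁| + 1) := by linarith
    have h10 : (k : ℝ) * (d - ((k : ℝ) - 1) * δ / 2) ≤ (k : ℝ) * (-(|q t + C₁| + 1)) :=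
      mul_le_mul_of_nonneg_left h9 (by linarith)
    have h11 : (k : ℝ) * (-(|q t + C₁| + 1)) ≤ -(|q t + C₁| + 1) := by nlinarith
    nlinarith [h10, h11]
  linarith

/-- **Lower bound.**  A quasi-quadratic function which is bounded below on the fine elements,
every element having a fine translate by an element of a fixed finite set, is bounded below
everywhere by `-C / 2`. -/
theorem lower_bound {q : J → ℝ} {C : ℝ}
    (hq : ∀ x y : J, |q (x + y) + q (x - y) - 2 * (q x + q y)| ≤ C)
    (Fine : J → Prop) (C₁ : ℝ) (hfine : ∀ x : J, Fine x → -C₁ ≤ q x)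
    (T : Finset J) (hT : ∀ x : J, ∃ t ∈ T, Fine (x + t)) (y : J) : -C / 2 ≤ q y := by
  classical
  by_contra hcon
  have hy : 2 * q y + C < 0 := by
    push Not at hcon
    linarith
  choose k₀ hk₀ using fun t : J => exists_line_lt hq y t C₁ hy
  obtain ⟨t, htT, hfin⟩ := hT ((T.sup k₀) • y)
  have h1 := hk₀ t (T.sup k₀) (Finset.le_sup htT)
  have h2 := hfine _ hfin
  linarith

end SpecialTate

open SpecialTate

/-- **(F5a)** The special locus by finitely many translates.  `q` quasi-quadratic on `J`;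
on the fine elements `0 ≤ ht ≤ q + C₁`; every element has a fine translate by an element of the
finite set `T`; on the subgroup `M` the fine translates of bounded `ht` are finite in number.
Then `h := q + C / 2` on `M` is non-negative, has finite sublevel sets and satisfies the
quasi-parallelogram law: exactly the input of `DescentShape.heightDescent_of_parallelogram`. -/
theorem exists_height_of_fine_translates {J : Type*} [AddCommGroup J] (M : AddSubgroup J)
    (q : J → ℝ) (C : ℝ)
    (hq : ∀ x y : J, |q (x + y) + q (x - y) - 2 * (q x + q y)| ≤ C)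
    (Fine : J → Prop) (ht : J → ℝ) (C₁ : ℝ)
    (hpos : ∀ x : J, Fine x → ht x ≤ q x + C₁)
    (ht0 : ∀ x : J, Fine x → 0 ≤ ht x)
    (T : Finset J) (hT : ∀ x : J, ∃ t ∈ T, Fine (x + t))
    (hfin : ∀ t ∈ T, ∀ B : ℝ,
      {x : ↥M | Fine ((x : J) + t) ∧ ht ((x : J) + t) ≤ B}.Finite) :
    ∃ (h : ↥M → ℝ) (C' : ℝ), (∀ x, 0 ≤ h x) ∧ (∀ B : ℝ, {x : ↥M | h x ≤ B}.Finite) ∧
      ∀ x y : ↥M, |h (x + y) + h (x - y) - 2 * (h x + h y)| ≤ C' := by
  classical
  have hlow : ∀ y : J, -C / 2 ≤ q y :=
    lower_bound hq Fine C₁ (fun x hx => by linarith [hpos x hx, ht0 x hx]) T hT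
  have hC0 : 0 ≤ C := le_trans (abs_nonneg _) (hq 0 0)
  refine ⟨fun x => q (x : J) + C / 2, 2 * C, fun x => ?_, fun B => ?_, fun x y => ?_⟩
  · have := hlow (x : J)
    linarith
  · refine Set.Finite.subset
      (Set.Finite.biUnion T.finite_toSet
        (fun t ht' => hfin t (Finset.mem_coe.mp ht') (2 * B + 2 * q t + C / 2 + C₁))) ?_
    intro x hx
    have hxB : q (x : J) + C / 2 ≤ B := hx
    obtain ⟨t, htT, hfine⟩ := hT (x : J)
    refine Set.mem_biUnion (Finset.mem_coe.mpr htT) ⟨hfine, ?_⟩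
    have h1 := (abs_le.mp (hq (x : J) t)).2
    have h2 := hlow ((x : J) - t)
    have h3 := hpos _ hfine
    linarith
  · have h1 := abs_le.mp (hq (x : J) (y : J))
    have e1 : ((x + y : ↥M) : J) = (x : J) + (y : J) := rfl
    have e2 : ((x - y : ↥M) : J) = (x : J) - (y : J) := rfl
    show |q ((x + y : ↥M) : J) + C / 2 + (q ((x - y : ↥M) : J) + C / 2)
      - 2 * (q (x : J) + C / 2 + (q (y : J) + C / 2))| ≤ 2 * C
    rw [e1, e2, abs_le]
    constructor <;> linarith [h1.1, h1.2]

end Fermat.Agent.S17.H.Pos
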