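import Mathlib
import Fermat.Agent.S17.R.Places
import Fermat.Agent.S17.R.FbInf
import Fermat.Agent.S30.HeckeInputs

/-!
# S17 / strand H, block F, leaf F5p: a Galois-stable pool of places

For every `n` there is a finite set `pool` of places of `Fb N` with at least `n` elements which
is stable under the arithmetic Galois action: the zeros of the functions `j - a`, `a < n`.

* each `j - a` is a nonzero function, so it has finitely many zeros (`support_ord_finite`);
* each `j - a` has a zero (`R.exists_zero`), and a place is a zero of at most one `j - a`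
  (`R.zero_unique`), so the pool has at least `n` elements;
* `j - a` is fixed by the Galois action (rational `q`-expansion), and
  `ord_{σ P} (σ f) = ord_P f`, so the zero set of `j - a` is Galois-stable.
-/

set_option autoImplicit false

namespace Fermat.Agent.S17.H.Pos

open AlgebraicCurve ModularCurve Fermat.Agent.S17.R

local notation "Qb" => AlgebraicClosure ℚ
local notation "Fb" => modularFunctionFieldBar

namespace StablePool

variable (N : ℕ) [NeZero N]

/-- `j` is not a constant of `Fb N`: its `q`-expansion has order `-1`. -/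
theorem jb_notMem_range : FbInf.jb N ∉ Set.range (algebraMap Qb (Fb N)) := by
  rintro ⟨c, hc⟩
  have h1 := FbInf.ordQ_jb N
  rw [← hc] at h1
  rcases eq_or_ne c 0 with rfl | hc0
  · rw [map_zero] at hc
    exact FbInf.jb_ne_zero N hc.symm
  · rw [FbInf.ordQ_algebraMap (L := Qb) (modularFunctionFieldFull N) c hc0] at h1
    omega

theorem transcendental_jb : Transcendental Qb (FbInf.jb N) :=
  Fermat.Agent.S24.FF.transcendental_of_not_mem_range (jb_notMem_range N)

/-- The function `j - a`. -/
noncomputable def fn (a : ℕ) : Fb N := FbInf.jb N - algebraMap Qb (Fb N) (a : Qb)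

theorem fn_ne_zero (a : ℕ) : fn N a ≠ 0 := fun h =>
  jb_notMem_range N ⟨(a : Qb), (sub_eq_zero.mp h).symm⟩

/-- `j` is fixed by the arithmetic Galois action. -/
theorem smul_jb (σ : Qb ≃ₐ[ℚ] Qb) :
    arithmeticGalois (modularFunctionFieldFull N) σ • FbInf.jb N = FbInf.jb N := by
  apply Subtype.ext
  rw [coe_arithmeticGalois_smul]
  exact coeffMap_coeffEmb σ jq

/-- `j - a` is fixed by the arithmetic Galois action. -/
theorem smul_fn (σ : Qb ≃ₐ[ℚ] Qb) (a : ℕ) :
    arithmeticGalois (modularFunctionFieldFull N) σ • fn N a = fn N a := by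
  unfold fn
  rw [smul_sub, smul_jb, SemilinearAut.smul_algebraMap, baseAut_arithmeticGalois]
  congr 2
  exact map_natCast σ a

/-- The zeros of `j - a` are finitely many. -/
theorem finite_zeros (a : ℕ) : {v : Place Qb (Fb N) | 0 < v.ord (fn N a)}.Finite :=
  (Fermat.Agent.S24.FF.support_ord_finite (Fermat.Agent.S30.HeckeInputs.trdeg_bar N)
    (fn_ne_zero N a)).subset fun _ hv => ne_of_gt hv

/-- The zero set of `j - a` is Galois-stable. -/
theorem smul_mem_zeros (σ : Qb ≃ₐ[ℚ] Qb) (a : ℕ) {P : Place Qb (Fb N)}
    (hP : 0 < P.ord (fn N a)) :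
    0 < (arithmeticGalois (modularFunctionFieldFull N) σ • P).ord (fn N a) := by
  have h := SemilinearAut.ord_smul (arithmeticGalois (modularFunctionFieldFull N) σ) P (fn N a)
  rw [smul_fn] at h
  rw [h]
  exact hP

end StablePool

/-- (F5p) A Galois-stable pool of at least `n` places of `Fb N`. -/
theorem exists_stable_pool (N : ℕ) [NeZero N] (n : ℕ) :
    ∃ pool : Finset (Place Qb (Fb N)), n ≤ pool.card ∧
      ∀ σ : Qb ≃ₐ[ℚ] Qb, ∀ P ∈ pool,
        arithmeticGalois (modularFunctionFieldFull N) σ • P ∈ pool := by
  classical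
  have htr := Fermat.Agent.S30.HeckeInputs.trdeg_bar N
  choose z hz using fun a : ℕ => exists_zero htr (StablePool.transcendental_jb N) (a : Qb)
  have hmem : ∀ (P : Place Qb (Fb N)),
      P ∈ (Finset.range n).biUnion (fun a => (StablePool.finite_zeros N a).toFinset) ↔
        ∃ a, a < n ∧ 0 < P.ord (StablePool.fn N a) := by
    intro P
    rw [Finset.mem_biUnion]
    refine exists_congr fun a => and_congr Finset.mem_range ?_
    rw [Set.Finite.mem_toFinset]
    exact Iff.rfl
  refine ⟨(Finset.range n).biUnion fun a => (StablePool.finite_zeros N a).toFinset, ?_, ?_⟩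
  · have h := Finset.card_le_card_of_injOn (s := Finset.range n)
      (t := (Finset.range n).biUnion fun a => (StablePool.finite_zeros N a).toFinset) z
      (fun a ha => Finset.mem_coe.mpr ((hmem (z a)).mpr
        ⟨a, Finset.mem_range.mp (Finset.mem_coe.mp ha), hz a⟩))
      (fun a _ b _ hab => Nat.cast_injective (R := Qb) (zero_unique (hz a) (hab ▸ hz b)))
    rwa [Finset.card_range] at h
  · intro σ P hP
    obtain ⟨a, ha, hPa⟩ := (hmem P).mp hP
    exact (hmem _).mpr ⟨a, ha, StablePool.smul_mem_zeros N σ a hPa⟩

end Fermat.Agent.S17.H.Pos
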