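import Mathlib
import Fermat.Agent.S17.Contract
import Fermat.Agent.S17.R.Riemann
import Fermat.Agent.S17.R.ReducedCore
import Fermat.Agent.S17.R.FbInf
import Fermat.Agent.S17.H.Pos.SpecialTate
import Fermat.Agent.S17.H.Pos.SpecialPool
import Fermat.Agent.S17.H.Pos.SpecialNorthcott
import Fermat.Agent.S17.H.Pos.StablePool

/-!
# S17, strand H, block F, leaf F5e: the special locus, assembled on `MW N`

`exists_descent_height_of_pos` : from

* (E4) a function `q` on `JZero N` with the quasi-parallelogram law,
* a place-height `Hpl ≥ 0` on the places of `Fb N` with the bounded-orbit Northcott property,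
* (F4, weak form) `H(redDiv x) ≤ q x + C₁` for the *fine* classes `x`, i.e. those for which the
  reduced degrees of `x` and of `-x` (base place `∞`) are both equal to the genus,

a function `h` on `MW N` with `h ≥ 0`, finite sublevel sets and the quasi-parallelogram law:
the three inputs of `DescentShape.heightDescent_of_parallelogram`.

The finite set of translates is the set of classes of the divisors of degree `0` supported in
a Galois-stable pool (F5p) with coefficients in `[-g, g]` (F5b); Northcott on the fine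
translates is F5c; the lower bound and the assembly are F5a.
-/

set_option autoImplicit false

namespace Fermat.Agent.S17.H.Pos

open AlgebraicCurve ModularCurve Fermat.Agent.S17 Fermat.Agent.S17.R

local notation "Qb" => AlgebraicClosure ℚ
local notation "Fb" => modularFunctionFieldBar

/-- **(F5e)** The special locus assembled: the descent height on `MW N` from the
quasi-parallelogram law, the bounded-orbit Northcott property of the place-height and the
positivity on fine classes. -/
theorem exists_descent_height_of_pos (N : ℕ) [NeZero N] (q : JZero N → ℝ) (C : ℝ)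
    (hq : ∀ x y : JZero N, |q (x + y) + q (x - y) - 2 * (q x + q y)| ≤ C)
    (Hpl : Place Qb (Fb N) → ℝ) (hH0 : ∀ P, 0 ≤ Hpl P)
    (hNor : ∀ (B : ℝ) (d : ℕ), {P : Place Qb (Fb N) | Hpl P ≤ B ∧
      ∃ s : Finset (Place Qb (Fb N)), s.card ≤ d ∧
        ∀ σ : Qb ≃ₐ[ℚ] Qb, arithmeticGalois (modularFunctionFieldFull N) σ • P ∈ s}.Finite)
    (C₁ : ℝ)
    (hpos : ∀ x : JZero N, redDeg (infPlace N) x = gR Qb (Fb N) →
      redDeg (infPlace N) (-x) = gR Qb (Fb N) →
      ((redDiv (infPlace N) x).sum fun P n => (n : ℝ) * Hpl P) ≤ q x + C₁) :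
    ∃ (h : ↥(MW N) → ℝ) (C' : ℝ), (∀ x, 0 ≤ h x) ∧ (∀ B : ℝ, {x : ↥(MW N) | h x ≤ B}.Finite) ∧
      ∀ x y : ↥(MW N), |h (x + y) + h (x - y) - 2 * (h x + h y)| ≤ C' := by
  classical
  have htr := Fermat.Agent.S30.HeckeInputs.trdeg_bar N
  obtain ⟨n₀, hn₀⟩ := exists_pool_fine htr (infPlace N)
  obtain ⟨pool, hcard, hstab⟩ := exists_stable_pool N n₀
  -- the finite set of translates
  let cls : Divisor Qb (Fb N) → JZero N := fun D =>
    if h : D ∈ Divisor.degZero (K := Qb) (F := Fb N) then Pic0.mk ⟨D, h⟩ else 0
  let T : Finset (JZero N) :=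
    (pool.finsupp fun _ => Finset.Icc (-(gR Qb (Fb N) : ℤ)) (gR Qb (Fb N))).image cls
  have hT : ∀ x : JZero N, ∃ t ∈ T, redDeg (infPlace N) (x + t) = gR Qb (Fb N) ∧
      redDeg (infPlace N) (-(x + t)) = gR Qb (Fb N) := by
    intro x
    obtain ⟨D, hD, hsupp, habs, h1, h2⟩ := hn₀ pool hcard x
    refine ⟨Pic0.mk ⟨D, hD⟩, ?_, h1, h2⟩
    rw [Finset.mem_image]
    refine ⟨D, ?_, dif_pos hD⟩
    rw [Finset.mem_finsupp_iff]
    refine ⟨fun P hP => ?_, fun P _ => ?_⟩
    · by_contra hn
      exact (Finsupp.mem_support_iff.mp hP) (hsupp P hn)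
    · rw [Finset.mem_Icc]
      exact abs_le.mp (habs P)
  have hTstab : ∀ σ : Qb ≃ₐ[ℚ] Qb, ∀ t ∈ T,
      arithmeticGalois (modularFunctionFieldFull N) σ • t ∈ T := by
    intro σ t ht
    rw [Finset.mem_image] at ht ⊢
    obtain ⟨D, hD, rfl⟩ := ht
    refine ⟨arithmeticGalois (modularFunctionFieldFull N) σ • D, ?_, ?_⟩
    · rw [Finset.mem_finsupp_iff] at hD ⊢
      obtain ⟨hs, hv⟩ := hD
      refine ⟨fun P hP => ?_, fun P _ => ?_⟩
      · rw [Finsupp.mem_support_iff, SemilinearAut.divisor_smul_apply] at hP
        have h1 : (arithmeticGalois (modularFunctionFieldFull N) σ)⁻¹ • P ∈ pool :=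
          hs (Finsupp.mem_support_iff.mpr hP)
        have h2 := hstab σ _ h1
        rwa [smul_inv_smul] at h2
      · rw [SemilinearAut.divisor_smul_apply]
        by_cases hmem : (arithmeticGalois (modularFunctionFieldFull N) σ)⁻¹ • P ∈ pool
        · exact hv _ hmem
        · have h0 : D ((arithmeticGalois (modularFunctionFieldFull N) σ)⁻¹ • P) = 0 := by
            by_contra hne
            exact hmem (hs (Finsupp.mem_support_iff.mpr hne))
          rw [h0, Finset.mem_Icc]
          exact ⟨neg_nonpos.mpr (Int.natCast_nonneg _), Int.natCast_nonneg _⟩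
    · by_cases h : D ∈ Divisor.degZero (K := Qb) (F := Fb N)
      · have h' : arithmeticGalois (modularFunctionFieldFull N) σ • D ∈
            Divisor.degZero (K := Qb) (F := Fb N) :=
          SemilinearAut.smul_mem_degZero _ h
        simp only [cls, dif_pos h, dif_pos h']
        rw [SemilinearAut.pic0_smul_mk]
        exact congrArg Pic0.mk (Subtype.ext rfl)
      · have h' : arithmeticGalois (modularFunctionFieldFull N) σ • D ∉
            Divisor.degZero (K := Qb) (F := Fb N) := by
          intro hh
          have h2 := SemilinearAut.smul_mem_degZero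
            (arithmeticGalois (modularFunctionFieldFull N) σ)⁻¹ hh
          rw [inv_smul_smul] at h2
          exact h h2
        simp only [cls, dif_neg h, dif_neg h']
        exact (smul_zero (A := JZero N) (arithmeticGalois (modularFunctionFieldFull N) σ)).symm
  -- the assembly
  refine exists_height_of_fine_translates (MW N) q C hq
    (fun y => redDeg (infPlace N) y = gR Qb (Fb N) ∧ redDeg (infPlace N) (-y) = gR Qb (Fb N))
    (fun y => (redDiv (infPlace N) y).sum fun P n => (n : ℝ) * Hpl P) C₁
    (fun x hx => hpos x hx.1 hx.2) (fun x _ => ?_) T hT (fun t htT B => ?_)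
  · have hE0 : 0 ≤ redDiv (infPlace N) x :=
      redDiv_nonneg_of_exists
        ⟨gR Qb (Fb N), exists_isEffRep_of_riemann htr (riemann_inequality htr) (infPlace N) x⟩
    refine Finsupp.sum_nonneg fun P _ => mul_nonneg ?_ (hH0 P)
    exact_mod_cast (show (0 : ℤ) ≤ redDiv (infPlace N) x P by
      simpa using Finsupp.le_def.mp hE0 P)
  · have h := northcott_fine_translate (arithmeticGalois (modularFunctionFieldFull N)) htr
      (infPlace N) (smul_infPlace N) Hpl hH0 hNor T hTstab t htT B
    refine Set.Finite.subset (h.preimage Subtype.val_injective.injOn) ?_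
    rintro ⟨x, hx⟩ ⟨hF, hB⟩
    exact ⟨fun σ => hx σ, hF.1, hB⟩

end Fermat.Agent.S17.H.Pos
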