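import Mathlib

/-!
# Program MW, strand H, block F, leaf F5n1: the Galois-orbit bound for the degree

Mathlib only.  An algebraic number all of whose Galois conjugates lie in a finite set `S` has
degree at most `S.card` over the rationals: the roots of its minimal polynomial in the algebraic
closure are Galois conjugates (normality), and the minimal polynomial is separable and splits.
-/

set_option autoImplicit false

namespace Fermat.Agent.S17.H.Pos

/-- If every Galois conjugate of `c` lies in the finite set `S`, then the degree of `c` over `ℚ`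
is at most `S.card`. -/
theorem natDegree_minpoly_le_of_orbit (c : AlgebraicClosure ℚ) (S : Finset (AlgebraicClosure ℚ)) (h : ∀ σ : AlgebraicClosure ℚ ≃ₐ[ℚ] AlgebraicClosure ℚ, σ c ∈ S) : (minpoly ℚ c).natDegree ≤ S.card := by
  classical
  haveI hA : Algebra.IsAlgebraic ℚ (AlgebraicClosure ℚ) := AlgebraicClosure.isAlgebraic ℚ
  haveI hC : IsAlgClosure ℚ (AlgebraicClosure ℚ) := ⟨inferInstance, inferInstance⟩
  haveI hN : Normal ℚ (AlgebraicClosure ℚ) := IsAlgClosure.normal ℚ (AlgebraicClosure ℚ)
  have halg : IsAlgebraic ℚ c := Algebra.IsAlgebraic.isAlgebraic c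
  have hint : IsIntegral ℚ c := halg.isIntegral
  have hsep : (minpoly ℚ c).Separable := (minpoly.irreducible hint).separable
  have hsplit : ((minpoly ℚ c).map (algebraMap ℚ (AlgebraicClosure ℚ))).Splits :=
    IsAlgClosed.splits _
  have hcard : Fintype.card ((minpoly ℚ c).rootSet (AlgebraicClosure ℚ)) = (minpoly ℚ c).natDegree :=
    Polynomial.card_rootSet_eq_natDegree hsep hsplit
  have hsub : (minpoly ℚ c).rootSet (AlgebraicClosure ℚ) ⊆ (S : Set (AlgebraicClosure ℚ)) := by
    intro r hr
    rw [Polynomial.mem_rootSet] at hr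
    obtain ⟨σ, hσ⟩ := minpoly.exists_algEquiv_of_root' (K := ℚ) halg hr.2
    rw [← hσ]
    exact h σ
  rw [← hcard, ← Set.toFinset_card]
  refine Finset.card_le_card ?_
  intro x hx
  exact Finset.mem_coe.mp (hsub (Set.mem_toFinset.mp hx))

end Fermat.Agent.S17.H.Pos
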