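/-
MW strand H, block F, leaf F5n: bounded-orbit Northcott for a place height on `Fb N`.

The input `hNor` of `northcott_fine_translate` (block F, special locus) for a concrete height
`Hpl` on the places of `Fb N`:  if a Galois-fixed non-constant function `ξ` has
`hQ (ξ(P)) ≤ a * Hpl P + C` at its finite places and `hQ` has the Northcott property for
algebraic numbers of bounded degree, then there are only finitely many places `P` of bounded
`Hpl` whose Galois orbit lies in a set of bounded cardinality.

The value `ξ(P) = c` is expressed by `0 < P.ord (ξ - c)` (equivalently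
`ξ = c ∨ 0 < P.ord (ξ - c)`, the right-hand side of `evalAt_eq_iff`).
-/
import Mathlib
import Fermat.Agent.S17.R.FbInf
import Fermat.Agent.S17.R.Places
import Fermat.Agent.S30.HeckeInputs
import Fermat.Agent.S17.H.Pos.OrbitDegree

set_option autoImplicit false

namespace Fermat.Agent.S17.H.Pos

open AlgebraicCurve ModularCurve

namespace OrbitNorthcott

section LevelFree

variable {K F : Type*} [Field K] [Field F] [Algebra K F]

/-- `c` is the value of `f` at the place `v`: `f` is regular at `v` with residue `c`. -/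
def IsValueAt (v : Place K F) (f : F) (c : K) : Prop :=
  f = algebraMap K F c ∨ 0 < v.ord (f - algebraMap K F c)

/-- A function has at most one value at a place. -/
theorem IsValueAt.unique {v : Place K F} {f : F} {c c' : K} (h : IsValueAt v f c)
    (h' : IsValueAt v f c') : c = c' := by
  by_contra hne
  have hcc : algebraMap K F (c' - c) ≠ 0 := by
    rw [Ne, map_eq_zero, sub_eq_zero]
    exact fun h => hne h.symm
  have h1 : (f - algebraMap K F c) - (f - algebraMap K F c') = algebraMap K F (c' - c) := by
    rw [map_sub]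
    ring
  rcases h with h | h
  · rcases h' with h' | h'
    · exact hne ((algebraMap K F).injective (h.symm.trans h'))
    · rw [h, ← map_sub, Fermat.Agent.S24.FF.ord_algebraMap] at h'
      exact lt_irrefl _ h'
  · rcases h' with h' | h'
    · rw [h', ← map_sub, Fermat.Agent.S24.FF.ord_algebraMap] at h
      exact lt_irrefl _ h
    · have h2 := Fermat.Agent.S24.FF.ord_sub_ge v (f := f - algebraMap K F c)
        (g := f - algebraMap K F c') (by rw [h1]; exact hcc)
      rw [h1, Fermat.Agent.S24.FF.ord_algebraMap] at h2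
      have h3 := lt_min h h'
      omega

/-- Semilinear automorphisms transport values: the value of `g • f` at `g • v` is the image of
the value of `f` at `v` under the base automorphism. -/
theorem IsValueAt.smul (g : SemilinearAut K F) {v : Place K F} {f : F} {c : K}
    (h : IsValueAt v f c) : IsValueAt (g • v) (g • f) (SemilinearAut.baseAut g c) := by
  rcases h with h | h
  · left
    rw [h, SemilinearAut.smul_algebraMap]
  · right
    have h1 : g • f - algebraMap K F (SemilinearAut.baseAut g c)
        = g • (f - algebraMap K F c) := by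
      rw [smul_sub, SemilinearAut.smul_algebraMap]
    rw [h1, SemilinearAut.ord_smul]
    exact h

end LevelFree

end OrbitNorthcott

open OrbitNorthcott

section Modular

variable (N : ℕ) [NeZero N]

local notation "Qb" => AlgebraicClosure ℚ
local notation "Fb" => modularFunctionFieldBar

omit [NeZero N] in
/-- The value of a Galois-fixed function at `σ • P` is `σ` of its value at `P`. -/
theorem galois_value {ξ : Fb N}
    (hξ : ∀ σ : Qb ≃ₐ[ℚ] Qb, arithmeticGalois (modularFunctionFieldFull N) σ • ξ = ξ)
    {P : Place Qb (Fb N)} {c : Qb}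
    (hc : ξ = algebraMap Qb (Fb N) c ∨ 0 < P.ord (ξ - algebraMap Qb (Fb N) c))
    (σ : Qb ≃ₐ[ℚ] Qb) :
    ξ = algebraMap Qb (Fb N) (σ c) ∨
      0 < (arithmeticGalois (modularFunctionFieldFull N) σ • P).ord
        (ξ - algebraMap Qb (Fb N) (σ c)) := by
  have h : IsValueAt P ξ c := hc
  have h1 := h.smul (arithmeticGalois (modularFunctionFieldFull N) σ)
  rw [hξ σ, baseAut_arithmeticGalois] at h1
  exact h1

omit [NeZero N] in
/-- **Bounded degree of values.**  If the Galois orbit of the place `P` lies in the finite set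
`s`, the value at `P` of a Galois-fixed function has degree at most `#s` over `ℚ`. -/
theorem natDegree_minpoly_value_le {ξ : Fb N}
    (hξ : ∀ σ : Qb ≃ₐ[ℚ] Qb, arithmeticGalois (modularFunctionFieldFull N) σ • ξ = ξ)
    {P : Place Qb (Fb N)} {c : Qb}
    (hc : ξ = algebraMap Qb (Fb N) c ∨ 0 < P.ord (ξ - algebraMap Qb (Fb N) c))
    (s : Finset (Place Qb (Fb N)))
    (hs : ∀ σ : Qb ≃ₐ[ℚ] Qb, arithmeticGalois (modularFunctionFieldFull N) σ • P ∈ s) :
    (minpoly ℚ c).natDegree ≤ s.card := by
  classical
  let val : Place Qb (Fb N) → Qb := fun P' =>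
    if h : ∃ c' : Qb, IsValueAt P' ξ c' then h.choose else 0
  have hval : ∀ σ : Qb ≃ₐ[ℚ] Qb,
      val (arithmeticGalois (modularFunctionFieldFull N) σ • P) = σ c := by
    intro σ
    have hv : IsValueAt (arithmeticGalois (modularFunctionFieldFull N) σ • P) ξ (σ c) :=
      galois_value N hξ hc σ
    have hex : ∃ c' : Qb,
        IsValueAt (arithmeticGalois (modularFunctionFieldFull N) σ • P) ξ c' := ⟨σ c, hv⟩
    show (if h : ∃ c' : Qb,
        IsValueAt (arithmeticGalois (modularFunctionFieldFull N) σ • P) ξ c'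
      then h.choose else 0) = σ c
    rw [dif_pos hex]
    exact hex.choose_spec.unique hv
  have hV : ∀ σ : Qb ≃ₐ[ℚ] Qb, σ c ∈ s.image val := by
    intro σ
    rw [← hval σ]
    exact Finset.mem_image_of_mem val (hs σ)
  exact (natDegree_minpoly_le_of_orbit c (s.image val) hV).trans Finset.card_image_le

/-- **Bounded-orbit Northcott for a place height on `Fb N`** (the hypothesis `hNor` of the
special-locus Northcott statement).  `ξ` is a Galois-fixed non-constant function; `hcmp`
compares the height `hQ` of its value at a place with the place height `Hpl`; `hN` is the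
Northcott property of `hQ` for algebraic numbers of bounded degree. -/
theorem orbit_northcott (Hpl : Place Qb (Fb N) → ℝ) {ξ : Fb N}
    (hξ : ∀ σ : Qb ≃ₐ[ℚ] Qb, arithmeticGalois (modularFunctionFieldFull N) σ • ξ = ξ)
    (hξK : ξ ∉ Set.range (algebraMap Qb (Fb N)))
    (hQ : Qb → ℝ)
    (hN : ∀ (d : ℕ) (B : ℝ), {c : Qb | (minpoly ℚ c).natDegree ≤ d ∧ hQ c ≤ B}.Finite)
    {a C : ℝ} (ha : 0 ≤ a)
    (hcmp : ∀ (P : Place Qb (Fb N)) (c : Qb),
      0 < P.ord (ξ - algebraMap Qb (Fb N) c) → hQ c ≤ a * Hpl P + C)
    (B : ℝ) (d : ℕ) :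
    {P : Place Qb (Fb N) | Hpl P ≤ B ∧ ∃ s : Finset (Place Qb (Fb N)), s.card ≤ d ∧
      ∀ σ : Qb ≃ₐ[ℚ] Qb, arithmeticGalois (modularFunctionFieldFull N) σ • P ∈ s}.Finite := by
  have htr := Fermat.Agent.S30.HeckeInputs.trdeg_bar N
  have hx : Transcendental Qb ξ := Fermat.Agent.S24.FF.transcendental_of_not_mem_range hξK
  have hξ0 : ξ ≠ 0 := fun h0 => hξK ⟨0, by rw [h0, map_zero]⟩
  have hpoles := Fermat.Agent.S24.FF.poles_finite htr hx
  have hY := hN d (a * B + C)
  have hfin : ({v : Place Qb (Fb N) | v.ord ξ < 0} ∪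
      ⋃ c ∈ {c : Qb | (minpoly ℚ c).natDegree ≤ d ∧ hQ c ≤ a * B + C},
        {v : Place Qb (Fb N) | 0 < v.ord (ξ - algebraMap Qb (Fb N) c)}).Finite :=
    hpoles.union (hY.biUnion fun c _ => Fermat.Agent.S24.FF.zeros_finite htr hx c)
  refine hfin.subset ?_
  rintro P ⟨hPB, s, hsd, hs⟩
  by_cases hpole : P.ord ξ < 0
  · exact Or.inl hpole
  · right
    have hmem : ξ ∈ P.toValuationSubring :=
      (Fermat.Agent.S24.FF.ord_nonneg_iff P hξ0).mp (not_lt.mp hpole)
    obtain ⟨c, hc⟩ := Fermat.Agent.S24.FF.exists_residue htr P hmem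
    have hc' : 0 < P.ord (ξ - algebraMap Qb (Fb N) c) :=
      hc.resolve_left (fun h => hξK ⟨c, h.symm⟩)
    have hdeg : (minpoly ℚ c).natDegree ≤ d :=
      (natDegree_minpoly_value_le N hξ (Or.inr hc') s hs).trans hsd
    have hh : hQ c ≤ a * B + C := by
      have h1 := hcmp P c hc'
      have h2 : a * Hpl P ≤ a * B := mul_le_mul_of_nonneg_left hPB ha
      linarith
    exact Set.mem_biUnion (show c ∈ {c : Qb | (minpoly ℚ c).natDegree ≤ d ∧ hQ c ≤ a * B + C}
      from ⟨hdeg, hh⟩) hc'

end Modular

end Fermat.Agent.S17.H.Pos
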