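/-
MW strand H, block F, leaf F5d: bounded-orbit Northcott for the place height of record.

`hNor` (and `hH0`) of the special-locus exit `Pos.exists_descent_height_of_pos` (F5e) for the
place height `Hpl := Glob.plH ev φ m₀`, `Hpl P = hT (φ(P)) / m₀`:

* `hQ_value_le_plH`  : the comparison `hQ (ξ(P)) ≤ m₀ * Hpl P` for a coordinate `ξ = φ i₁` when
  another coordinate `φ i₀` is the constant `1` (height of a sub-tuple);
* `plH_orbit_northcott` : there are only finitely many places of bounded `Hpl` whose Galois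
  orbit lies in a set of bounded cardinality, as soon as one coordinate is `1` and one
  coordinate is Galois-fixed and non-constant.  No hypothesis on the poles of `φ` is used.
* `plH_evalAt_orbit_northcott` : the same for the canonical value function `Glob.evalAt`.
-/
import Mathlib
import Fermat.Agent.S17.H.Pos.OrbitNorthcott
import Fermat.Agent.S17.H.Glob.PlaceHeight
import Fermat.Agent.S17.H.AbsHeight.NorthcottDeg
import Fermat.Agent.S17.H.AbsHeight.Tuple

set_option autoImplicit false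

namespace Fermat.Agent.S17.H.Pos

open AlgebraicCurve ModularCurve

namespace PlaceNorthcott

local notation "Qb" => AlgebraicClosure ℚ

section LevelFree

variable {F : Type*} [Field F] [Algebra Qb F] {r : ℕ}

/-- The value function at a place where `f - c` vanishes. -/
theorem ev_eq_of_ord_pos {ev : Place Qb F → F → Qb} (hev : Glob.IsEval ev) {P : Place Qb F}
    {f : F} {c : Qb} (h : 0 < P.ord (f - algebraMap Qb F c)) : ev P f = c := by
  have h1 : f - algebraMap Qb F c ∈ P.toValuationSubring := Fermat.Agent.S24.FF.mem_of_ord_pos P h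
  have h2 : f ∈ P.toValuationSubring := by
    have h3 := P.toValuationSubring.add_mem _ _ h1 (P.algebraMap_mem' c)
    rwa [sub_add_cancel] at h3
  exact hev.eq_of_valuation_lt h2 ((Glob.valuation_lt_one_iff P _).mpr (Or.inr h))

/-- **Comparison** of the height of the value of one coordinate with the place height: if the
coordinate `φ i₀` is the constant `1` and `c` is the value of `φ i₁` at `P`, then
`hQ c ≤ m₀ * Hpl P`. -/
theorem hQ_value_le_plH {ev : Place Qb F → F → Qb} (hev : Glob.IsEval ev) (φ : Fin r → F)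
    {m₀ : ℕ} (hm : m₀ ≠ 0) {i₀ : Fin r} (h1 : φ i₀ = 1) (i₁ : Fin r) (P : Place Qb F) (c : Qb)
    (h : 0 < P.ord (φ i₁ - algebraMap Qb F c)) :
    hQ c ≤ (m₀ : ℝ) * Glob.plH ev φ m₀ P := by
  rw [Glob.plH_mul ev φ hm]
  have hc : Glob.valVec ev φ P i₁ = c := ev_eq_of_ord_pos hev h
  have h0 : Glob.valVec ev φ P i₀ = 1 := by
    show ev P (φ i₀) = 1
    rw [h1]
    exact hev.map_one P
  have := Tuple.hQ_le_hT_of_eq_one (Glob.valVec ev φ P) i₁ h0
  rwa [hc] at this

end LevelFree

section Modular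

variable (N : ℕ) [NeZero N]

local notation "Fb" => modularFunctionFieldBar

/-- **(F5d)** Bounded-orbit Northcott for the place height of record `Glob.plH ev φ m₀`:
one coordinate of `φ` is `1`, one coordinate is Galois-fixed and non-constant. -/
theorem plH_orbit_northcott {ev : Place Qb (Fb N) → Fb N → Qb} (hev : Glob.IsEval ev) {r : ℕ}
    (φ : Fin r → Fb N) {m₀ : ℕ} (hm : m₀ ≠ 0) {i₀ i₁ : Fin r} (h1 : φ i₀ = 1)
    (hfix : ∀ σ : Qb ≃ₐ[ℚ] Qb, arithmeticGalois (modularFunctionFieldFull N) σ • φ i₁ = φ i₁)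
    (hnc : φ i₁ ∉ Set.range (algebraMap Qb (Fb N))) (B : ℝ) (d : ℕ) :
    {P : Place Qb (Fb N) | Glob.plH ev φ m₀ P ≤ B ∧ ∃ s : Finset (Place Qb (Fb N)), s.card ≤ d ∧
      ∀ σ : Qb ≃ₐ[ℚ] Qb, arithmeticGalois (modularFunctionFieldFull N) σ • P ∈ s}.Finite :=
  orbit_northcott N (Glob.plH ev φ m₀) hfix hnc hQ
    finite_setOf_natDegree_minpoly_le_and_hQ_le (a := (m₀ : ℝ)) (C := 0) (Nat.cast_nonneg m₀)
    (fun P c h => by
      rw [add_zero]
      exact hQ_value_le_plH hev φ hm h1 i₁ P c h) B d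

/-- **(F5d)** for the canonical value function: `hNor` of `Pos.exists_descent_height_of_pos`
with `Hpl := Glob.plH Glob.evalAt φ m₀`. -/
theorem plH_evalAt_orbit_northcott {r : ℕ} (φ : Fin r → Fb N) {m₀ : ℕ} (hm : m₀ ≠ 0)
    {i₀ i₁ : Fin r} (h1 : φ i₀ = 1)
    (hfix : ∀ σ : Qb ≃ₐ[ℚ] Qb, arithmeticGalois (modularFunctionFieldFull N) σ • φ i₁ = φ i₁)
    (hnc : φ i₁ ∉ Set.range (algebraMap Qb (Fb N))) :
    ∀ (B : ℝ) (d : ℕ), {P : Place Qb (Fb N) | Glob.plH Glob.evalAt φ m₀ P ≤ B ∧
      ∃ s : Finset (Place Qb (Fb N)), s.card ≤ d ∧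
        ∀ σ : Qb ≃ₐ[ℚ] Qb, arithmeticGalois (modularFunctionFieldFull N) σ • P ∈ s}.Finite :=
  plH_orbit_northcott N (Glob.isEval_evalAt (Fermat.Agent.S30.HeckeInputs.trdeg_bar N)) φ hm h1
    hfix hnc

omit [NeZero N] in
/-- `hH0` of `Pos.exists_descent_height_of_pos` for the place height of record. -/
theorem plH_evalAt_nonneg {r : ℕ} (φ : Fin r → Fb N) (m₀ : ℕ) (P : Place Qb (Fb N)) :
    0 ≤ Glob.plH Glob.evalAt φ m₀ P :=
  Glob.plH_nonneg _ φ m₀ P

end Modular

end PlaceNorthcott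

end Fermat.Agent.S17.H.Pos
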