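import Mathlib

/-!
# Program MW, strand H, block F, leaf F1a: the vector of maximal minors

Mathlib only.

* `minor_ne_zero`: if the left kernel of an `(n+1) × n` matrix `B` is the line spanned by `c`
  and `c i₀ ≠ 0`, then the maximal minor of `B` obtained by deleting the row `i₀` is nonzero.
* `cofactor_vecMul`: the vector of signed maximal minors of an `(n+1) × n` matrix is in its left
  kernel (Laplace expansion of a matrix with a repeated column).
-/

set_option autoImplicit false

namespace Fermat.Agent.S17.H.Pos

/-- If the left kernel of the `(n+1) × n` matrix `B` is spanned by `c` and `c i₀ ≠ 0`, then the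
maximal minor of `B` that deletes the row `i₀` is nonzero. -/
theorem minor_ne_zero {k : Type*} [Field k] {n : ℕ} (B : Matrix (Fin (n+1)) (Fin n) k) (c : Fin (n+1) → k) (hc : Matrix.vecMul c B = 0) (hspan : ∀ c' : Fin (n+1) → k, Matrix.vecMul c' B = 0 → ∃ a : k, c' = a • c) (i₀ : Fin (n+1)) (hi : c i₀ ≠ 0) : (B.submatrix i₀.succAbove id).det ≠ 0 := by
  intro hdet
  obtain ⟨u, hu0, hu⟩ := Matrix.exists_vecMul_eq_zero_iff.mpr hdet
  -- extend `u` by zero at `i₀`
  have hc' : Matrix.vecMul (i₀.insertNth (0 : k) u : Fin (n+1) → k) B = 0 := by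
    funext j
    have hj := congrFun hu j
    simp only [Matrix.vecMul, dotProduct, Matrix.submatrix_apply, id_eq, Pi.zero_apply] at hj ⊢
    rw [Fin.sum_univ_succAbove _ i₀]
    simp only [Fin.insertNth_apply_same, zero_mul, zero_add, Fin.insertNth_apply_succAbove]
    exact hj
  obtain ⟨a, ha⟩ := hspan _ hc'
  have ha0 : a = 0 := by
    have h := congrFun ha i₀
    simp only [Fin.insertNth_apply_same, Pi.smul_apply, smul_eq_mul] at h
    rcases mul_eq_zero.mp h.symm with h | h
    · exact h
    · exact absurd h hi
  apply hu0
  funext j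
  have h := congrFun ha (i₀.succAbove j)
  simpa [ha0] using h

/-- The vector of signed maximal minors of an `(n+1) × n` matrix lies in its left kernel. -/
theorem cofactor_vecMul {k : Type*} [Field k] {n : ℕ} (B : Matrix (Fin (n+1)) (Fin n) k) : Matrix.vecMul (fun i : Fin (n+1) => (-1) ^ (i : ℕ) * (B.submatrix i.succAbove id).det) B = 0 := by
  funext j
  -- the square matrix whose column `0` is the column `j` of `B`, followed by the columns of `B`
  let M : Matrix (Fin (n+1)) (Fin (n+1)) k := Matrix.of fun i l => (Fin.cons (B i j) (B i) : Fin (n+1) → k) l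
  have hM0 : ∀ i, M i 0 = B i j := fun i => by simp [M]
  have hMs : ∀ i (l : Fin n), M i l.succ = B i l := fun i l => by simp [M]
  have hdet : M.det = 0 := by
    refine Matrix.det_zero_of_column_eq (i := 0) (j := j.succ) (Fin.succ_ne_zero j).symm ?_
    intro i
    rw [hM0, hMs]
  have hsub : ∀ i : Fin (n+1), M.submatrix i.succAbove Fin.succ = B.submatrix i.succAbove id := by
    intro i
    ext a b
    simp only [Matrix.submatrix_apply, id_eq]
    exact hMs _ _
  rw [Matrix.det_succ_column_zero] at hdet
  simp only [Matrix.vecMul, dotProduct, Pi.zero_apply]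
  rw [← hdet]
  refine Finset.sum_congr rfl fun i _ => ?_
  rw [hM0, hsub]
  ring

end Fermat.Agent.S17.H.Pos
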