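import Mathlib

/-!
# S17 (PROGRAM MW, strand H, block F): the abstract Northcott transfer (leaf F5b)

No curve and no height machine in this file (Mathlib only).  The data are:

* a set `S` of "classes" and an injective (on `S`) assignment `E` of an effective divisor
  (a finitely supported function `Pl →₀ ℤ` with non-negative values, of total degree `≤ d`)
  to every class of `S`;
* a non-negative "height" `H` on the points `Pl`;
* a "coordinate" `ξ : Pl → Qb` with finite fibres, whose values on the supports of the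
  divisors `E x`, `x ∈ S`, are algebraic numbers of degree `≤ d'`;
* a function `hQ` on `Qb` with the Northcott property in bounded degree and a comparison
  `hQ (ξ P) ≤ a * H P + C`.

Conclusion: only finitely many classes `x ∈ S` have `∑ P, (E x P) * H P ≤ B`.

`finite_of_height_le` is the literal of the task row `S17.H.F5b` (NorthcottAbs);
`finite_of_height_le_of_deg` is the same statement for an arbitrary value type `Q` with an
arbitrary "degree" function (the proof never uses anything about `Qb`).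
-/

set_option autoImplicit false

namespace Fermat.Agent.S17.H.Pos.NorthcottAbs

/-- One term of a sum of non-negative terms `(E P) * H P` bounds `H P` at a point of the
support of an effective divisor. -/
theorem height_le_of_sum_le {Pl : Type*} (f : Pl →₀ ℤ) (hf : 0 ≤ f) (H : Pl → ℝ)
    (hH : ∀ P, 0 ≤ H P) {B : ℝ} (hB : ∑ P ∈ f.support, (f P : ℝ) * H P ≤ B) {P : Pl}
    (hP : P ∈ f.support) : H P ≤ B := by
  have h0 : ∀ Q ∈ f.support, 0 ≤ (f Q : ℝ) * H Q := fun Q _ =>
    mul_nonneg (by exact_mod_cast hf Q) (hH Q)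
  have h1 : (f P : ℝ) * H P ≤ ∑ Q ∈ f.support, (f Q : ℝ) * H Q :=
    Finset.single_le_sum h0 hP
  have h2 : (1 : ℤ) ≤ f P := by
    have h3 : 0 ≤ f P := hf P
    have h4 : f P ≠ 0 := Finsupp.mem_support_iff.mp hP
    omega
  have h5 : (1 : ℝ) ≤ (f P : ℝ) := by exact_mod_cast h2
  nlinarith [hH P]

/-- The values of an effective divisor of total degree `≤ d` lie in `[0, d]`. -/
theorem apply_mem_Icc_of_sum_le {Pl : Type*} (f : Pl →₀ ℤ) (hf : 0 ≤ f) {d : ℕ}
    (hd : f.sum (fun _ n => n) ≤ d) (P : Pl) : f P ∈ Finset.Icc (0 : ℤ) d := by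
  rw [Finset.mem_Icc]
  refine ⟨hf P, ?_⟩
  by_cases hP : P ∈ f.support
  · have h1 : f P ≤ ∑ Q ∈ f.support, f Q :=
      Finset.single_le_sum (f := fun Q => f Q) (fun Q _ => hf Q) hP
    exact h1.trans hd
  · rw [Finsupp.notMem_support_iff.mp hP]
    exact_mod_cast Nat.zero_le d

/-- **Abstract Northcott transfer**, for an arbitrary value type `Q` with a "degree" function
`deg` and a function `hQ` which has the Northcott property in bounded degree. -/
theorem finite_of_height_le_of_deg {Cls Pl Q : Type*} (S : Set Cls) (E : Cls → Pl →₀ ℤ)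
    (hinj : Set.InjOn E S) (hE0 : ∀ x ∈ S, 0 ≤ E x) (d : ℕ)
    (hd : ∀ x ∈ S, (E x).sum (fun _ n => n) ≤ d) (H : Pl → ℝ) (hH : ∀ P, 0 ≤ H P)
    (ξ : Pl → Q) (hξ : ∀ c : Q, {P | ξ P = c}.Finite) (deg : Q → ℕ) (hQ : Q → ℝ)
    (hN : ∀ (d : ℕ) (B : ℝ), {c : Q | deg c ≤ d ∧ hQ c ≤ B}.Finite)
    (a C : ℝ) (hcmp : ∀ P, hQ (ξ P) ≤ a * H P + C) (d' : ℕ)
    (hdeg : ∀ x ∈ S, ∀ P ∈ (E x).support, deg (ξ P) ≤ d') :
    ∀ B : ℝ, {x ∈ S | ∑ P ∈ (E x).support, (E x P : ℝ) * H P ≤ B}.Finite := by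
  classical
  intro B
  -- the finitely many admissible values of `ξ`
  have hTfin : {c : Q | deg c ≤ d' ∧ hQ c ≤ |a| * |B| + C}.Finite := hN d' _
  -- the finitely many admissible points
  have hUfin : {P : Pl | deg (ξ P) ≤ d' ∧ hQ (ξ P) ≤ |a| * |B| + C}.Finite := by
    have hU : {P : Pl | deg (ξ P) ≤ d' ∧ hQ (ξ P) ≤ |a| * |B| + C}
        = ⋃ c ∈ {c : Q | deg c ≤ d' ∧ hQ c ≤ |a| * |B| + C}, {P | ξ P = c} := by
      ext P
      simp
    rw [hU]
    exact hTfin.biUnion fun c _ => hξ c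
  -- the finitely many admissible divisors
  have hFfin : (↑(hUfin.toFinset.finsupp fun _ => Finset.Icc (0 : ℤ) d) : Set (Pl →₀ ℤ)).Finite :=
    Finset.finite_toSet _
  refine Set.Finite.of_finite_image (f := E) (hFfin.subset ?_)
    (hinj.mono (Set.sep_subset _ _))
  rintro _ ⟨x, ⟨hxS, hxB⟩, rfl⟩
  rw [Finset.mem_coe, Finset.mem_finsupp_iff]
  refine ⟨fun P hP => ?_, fun P _ => apply_mem_Icc_of_sum_le (E x) (hE0 x hxS) (hd x hxS) P⟩
  rw [Set.Finite.mem_toFinset]
  show deg (ξ P) ≤ d' ∧ hQ (ξ P) ≤ |a| * |B| + C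
  refine ⟨hdeg x hxS P hP, ?_⟩
  have hHP : H P ≤ B := height_le_of_sum_le (E x) (hE0 x hxS) H hH hxB hP
  have h1 : a * H P ≤ |a| * H P := mul_le_mul_of_nonneg_right (le_abs_self a) (hH P)
  have h2 : |a| * H P ≤ |a| * |B| :=
    mul_le_mul_of_nonneg_left (hHP.trans (le_abs_self B)) (abs_nonneg a)
  linarith [hcmp P]

/-- **Leaf F5b (NorthcottAbs): the Northcott transfer** over `Qb = AlgebraicClosure ℚ`.
`E` assigns to every class `x ∈ S` an effective divisor of total degree `≤ d`, injectively;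
`H ≥ 0` is a height on points, `ξ` a coordinate with finite fibres whose values on the supports
have degree `≤ d'` over `ℚ`, and `hQ` a function on `Qb` with the Northcott property in bounded
degree, compared to `H` by `hQ (ξ P) ≤ a * H P + C`.  Then the classes `x ∈ S` with
`∑ P, (E x P) * H P ≤ B` are finite in number. -/
theorem finite_of_height_le {Cls Pl : Type*} (S : Set Cls) (E : Cls → Pl →₀ ℤ)
    (hinj : Set.InjOn E S) (hE0 : ∀ x ∈ S, 0 ≤ E x) (d : ℕ)
    (hd : ∀ x ∈ S, (E x).sum (fun _ n => n) ≤ d) (H : Pl → ℝ) (hH : ∀ P, 0 ≤ H P)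
    (ξ : Pl → AlgebraicClosure ℚ) (hξ : ∀ c : AlgebraicClosure ℚ, {P | ξ P = c}.Finite)
    (hQ : AlgebraicClosure ℚ → ℝ)
    (hN : ∀ (d : ℕ) (B : ℝ),
      {c : AlgebraicClosure ℚ | (minpoly ℚ c).natDegree ≤ d ∧ hQ c ≤ B}.Finite)
    (a C : ℝ) (hcmp : ∀ P, hQ (ξ P) ≤ a * H P + C) (d' : ℕ)
    (hdeg : ∀ x ∈ S, ∀ P ∈ (E x).support, (minpoly ℚ (ξ P)).natDegree ≤ d') :
    ∀ B : ℝ, {x ∈ S | ∑ P ∈ (E x).support, (E x P : ℝ) * H P ≤ B}.Finite :=
  finite_of_height_le_of_deg S E hinj hE0 d hd H hH ξ hξ (fun c => (minpoly ℚ c).natDegree) hQ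
    hN a C hcmp d' hdeg

end Fermat.Agent.S17.H.Pos.NorthcottAbs
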